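import Fermat.Agent.LogSobolev.Smoothing
import Mathlib.Probability.Moments.MGFAnalytic
import Mathlib.Probability.Distributions.Gaussian.Real
import Mathlib.Probability.Distributions.Gaussian.Multivariate

/-!
# Herbst's argument

For smooth `f` the inequality of Gross makes `log E exp (s f) / s - s L² / 2` decreasing in `s > 0`;
truncation and smoothing extend the bound to every Lipschitz function.
-/

set_option autoImplicit false

noncomputable section

namespace FA.LogSobolev

open MeasureTheory ProbabilityTheory Filter Topology Finset Real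

variable {d : ℕ} {f : (Fin d → ℝ) → ℝ} {f' : (Fin d → ℝ) → (Fin d → ℝ) →L[ℝ] ℝ}

theorem SmoothBounded.neg (h : SmoothBounded f f') :
    SmoothBounded (fun y => -f y) fun y => -f' y :=
  ⟨fun x => (h.deriv_at x).neg, by simpa using h.bounded, by simpa using h.deriv_bounded,
    h.deriv_unif.neg⟩

theorem SmoothBounded.uniformContinuous (h : SmoothBounded f f') : UniformContinuous f := by
  obtain ⟨C, hC⟩ := h.deriv_bounded
  refine (lipschitzWith_of_nnnorm_fderiv_le (C := C.toNNReal) (fun x => (h.deriv_at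
      x).differentiableAt)
    fun x => ?_).uniformContinuous
  rw [(h.deriv_at x).fderiv, ← NNReal.coe_le_coe, coe_nnnorm]
  exact (hC x).trans (Real.le_coe_toNNReal C)

theorem SmoothBounded.exp_half (h : SmoothBounded f f') (s : ℝ) :
    SmoothBounded (fun y => exp (s / 2 * f y))
      fun y => (exp (s / 2 * f y) * (s / 2)) • f' y := by
  obtain ⟨C₁, hC₁⟩ := exists_bound_comp (φ := fun u => exp (s / 2 * u) * (s / 2)) (by fun_prop)
    h.bounded
  obtain ⟨C', hC'⟩ := h.deriv_bounded
  have h0 : 0 ≤ C₁ := (abs_nonneg _).trans (hC₁ 0)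
  have h0' : 0 ≤ C' := (norm_nonneg _).trans (hC' 0)
  refine ⟨fun x => ?_, exists_bound_comp (φ := fun u => exp (s / 2 * u)) (by fun_prop) h.bounded,
    ⟨C₁ * C', fun x => ?_⟩, ?_⟩
  · refine (((h.deriv_at x).const_mul (s / 2)).exp).congr_fderiv ?_
    rw [smul_smul]
  · rw [norm_smul]
    exact mul_le_mul (hC₁ x) (hC' x) (norm_nonneg _) h0
  · have hu : UniformContinuous fun y => exp (s / 2 * f y) * (s / 2) := by
      obtain ⟨C, hC⟩ := h.bounded
      have hon : UniformContinuousOn (fun u : ℝ => exp (s / 2 * u) * (s / 2)) (Set.Icc (-C) C) :=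
        isCompact_Icc.uniformContinuousOn_of_continuous (by fun_prop)
      rw [Metric.uniformContinuous_iff]
      intro ε hε
      obtain ⟨δ, hδ, hφ⟩ := Metric.uniformContinuousOn_iff.1 hon ε hε
      obtain ⟨δ', hδ', hf⟩ := Metric.uniformContinuous_iff.1 h.uniformContinuous δ hδ
      exact ⟨δ', hδ', fun {a b} hab => hφ _ (abs_le.1 (hC a)) _ (abs_le.1 (hC b)) (hf hab)⟩
    rw [Metric.uniformContinuous_iff]
    intro ε hε
    obtain ⟨δ₁, hδ₁, h₁⟩ := Metric.uniformContinuous_iff.1 hu (ε / 2 / (C' + 1)) (by positivity)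
    obtain ⟨δ₂, hδ₂, h₂⟩ := Metric.uniformContinuous_iff.1 h.deriv_unif (ε / 2 / (C₁ + 1))
      (by positivity)
    refine ⟨min δ₁ δ₂, lt_min hδ₁ hδ₂, fun {a b} hab => ?_⟩
    have e1 := h₁ (lt_of_lt_of_le hab (min_le_left _ _))
    have e2 := h₂ (lt_of_lt_of_le hab (min_le_right _ _))
    rw [dist_eq_norm] at e1 e2 ⊢
    set u := exp (s / 2 * f a) * (s / 2)
    set v := exp (s / 2 * f b) * (s / 2)
    have e3 : ‖u • f' a - v • f' b‖ ≤ ‖u - v‖ * C' + C₁ * ‖f' a - f' b‖ := by
      rw [show u • f' a - v • f' b = (u - v) • f' a + v • (f' a - f' b) by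
        ext w; simp; ring]
      refine (norm_add_le _ _).trans (add_le_add ?_ ?_)
      · rw [norm_smul]
        exact mul_le_mul_of_nonneg_left (hC' a) (norm_nonneg _)
      · rw [norm_smul]
        exact mul_le_mul_of_nonneg_right (hC₁ b) (norm_nonneg _)
    have e4 : ε / 2 / (C' + 1) * C' ≤ ε / 2 := by
      rw [div_mul_eq_mul_div, div_le_iff₀ (by positivity)]
      nlinarith
    have e5 : C₁ * (ε / 2 / (C₁ + 1)) < ε / 2 := by
      rw [mul_comm, div_mul_eq_mul_div, div_lt_iff₀ (by positivity)]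
      nlinarith
    have e6 := mul_le_mul_of_nonneg_right e1.le h0'
    have e7 := mul_le_mul_of_nonneg_left e2.le h0
    linarith

/-- **Herbst's argument**, for positive parameters. -/
theorem herbst {L : ℝ} (h : SmoothBounded f f') (hg : ∀ y, ∑ j, pd f' j y ^ 2 ≤ L ^ 2) {s : ℝ}
    (hs : 0 < s) :
    mgf f (stdNormal d) s ≤ exp (s * ∫ y, f y ∂stdNormal d + s ^ 2 * L ^ 2 / 2) := by
  set γ := stdNormal d
  obtain ⟨C, hC⟩ := h.bounded
  have hexp : ∀ t : ℝ, Integrable (fun y => exp (t * f y)) γ := fun t => by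
    obtain ⟨M, hM⟩ := exists_bound_comp (φ := fun u => exp (t * u)) (by fun_prop) h.bounded
    exact Integrable.of_bound (h.continuous.const_mul t |>.rexp).aestronglyMeasurable M
      (Eventually.of_forall hM)
  have hset : integrableExpSet f γ = Set.univ := Set.eq_univ_of_forall hexp
  have hder : ∀ t : ℝ, HasDerivAt (fun r => log (mgf f γ r))
      ((∫ y, f y * exp (t * f y) ∂γ) / mgf f γ t) t := fun t =>
    (hasDerivAt_mgf (by rw [hset, interior_univ]; exact Set.mem_univ t)).log (mgf_pos (hexp t)).ne'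
  have hlsi : ∀ t : ℝ, t * ∫ y, f y * exp (t * f y) ∂γ - mgf f γ t * log (mgf f γ t) ≤
      t ^ 2 * L ^ 2 / 2 * mgf f γ t := by
    intro t
    have hh := gaussian_lsi (h.exp_half t)
    have esq : ∀ y, exp (t / 2 * f y) ^ 2 = exp (t * f y) := fun y => by
      rw [← exp_nat_mul]
      push_cast
      ring_nf
    simp only [esq, log_exp, pd, ContinuousLinearMap.smul_apply, smul_eq_mul] at hh
    have e1 : ∫ y, exp (t * f y) * (t * f y) ∂γ = t * ∫ y, f y * exp (t * f y) ∂γ := by
      rw [← integral_const_mul]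
      exact integral_congr_ae (Eventually.of_forall fun y => by ring)
    have e2 : ∫ y, ∑ j, (exp (t / 2 * f y) * (t / 2) * f' y (Pi.single j 1)) ^ 2 ∂γ ≤
        t ^ 2 * L ^ 2 / 4 * mgf f γ t := by
      rw [mgf, ← integral_const_mul]
      refine integral_mono_of_nonneg (Eventually.of_forall fun y => sum_nonneg fun j _ =>
          sq_nonneg _)
        ((hexp t).const_mul _) (Eventually.of_forall fun y => ?_)
      show ∑ j, (exp (t / 2 * f y) * (t / 2) * pd f' j y) ^ 2 ≤ t ^ 2 * L ^ 2 / 4 * exp (t * f y)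
      simp only [mul_pow, esq, ← mul_sum]
      calc exp (t * f y) * (t / 2) ^ 2 * ∑ j, pd f' j y ^ 2
          ≤ exp (t * f y) * (t / 2) ^ 2 * L ^ 2 := mul_le_mul_of_nonneg_left (hg y) (by positivity)
        _ = _ := by ring
    rw [e1] at hh
    simp only [mgf] at *
    linarith
  set K : ℝ → ℝ := fun t => log (mgf f γ t) / t - t * L ^ 2 / 2
  have hK : ∀ t : ℝ, 0 < t → HasDerivAt K
      (((∫ y, f y * exp (t * f y) ∂γ) / mgf f γ t * t - log (mgf f γ t)) / t ^ 2 - L ^ 2 / 2) t
          := by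
    intro t ht
    refine ((((hder t).div (hasDerivAt_id t) ht.ne')).sub
      (((hasDerivAt_id t).mul_const (L ^ 2)).div_const 2)).congr_deriv ?_
    simp
  have hanti : AntitoneOn K (Set.Ioi 0) := by
    refine antitoneOn_of_deriv_nonpos (convex_Ioi 0)
      (fun t ht => (hK t ht).continuousAt.continuousWithinAt) ?_ ?_
    · rw [interior_Ioi]
      exact fun t ht => (hK t ht).differentiableAt.differentiableWithinAt
    · rw [interior_Ioi]
      intro t ht
      have ht' : 0 < t := ht
      have hp := mgf_pos (hexp t)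
      rw [(hK t ht').deriv, sub_nonpos, div_le_iff₀ (by positivity), div_mul_eq_mul_div,
        div_sub' hp.ne', div_le_iff₀ hp]
      linarith [hlsi t]
  have hlim : Tendsto K (𝓝[>] 0) (𝓝 (∫ y, f y ∂γ)) := by
    have h0 := hder 0
    simp only [zero_mul, exp_zero, mul_one] at h0
    rw [mgf_zero, div_one] at h0
    have h1 : Tendsto (slope (fun r => log (mgf f γ r)) 0) (𝓝[>] 0) (𝓝 (∫ y, f y ∂γ)) :=
      (hasDerivAt_iff_tendsto_slope.1 h0).mono_left
        (nhdsWithin_mono (0 : ℝ) fun t (ht : 0 < t) => ne_of_gt ht)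
    have h2 : Tendsto (fun t : ℝ => t * L ^ 2 / 2) (𝓝[>] 0) (𝓝 0) := by
      have hc : Continuous fun t : ℝ => t * L ^ 2 / 2 := by fun_prop
      simpa using (hc.tendsto (0 : ℝ)).mono_left nhdsWithin_le_nhds
    have h3 := h1.sub h2
    rw [sub_zero] at h3
    refine h3.congr fun t => ?_
    simp [K, slope_def_field]
  have hle : K s ≤ ∫ y, f y ∂γ := by
    refine ge_of_tendsto hlim ?_
    filter_upwards [Ioo_mem_nhdsGT hs] with t ht
    exact hanti ht.1 hs ht.2.le
  simp only [K, sub_le_iff_le_add, div_le_iff₀ hs] at hle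
  rw [← exp_log (mgf_pos (hexp s))]
  exact exp_le_exp.2 (hle.trans_eq (by ring))

/-- The same for every parameter. -/
theorem herbst_all {L : ℝ} (h : SmoothBounded f f') (hg : ∀ y, ∑ j, pd f' j y ^ 2 ≤ L ^ 2) (s : ℝ) :
    ∫ y, exp (s * f y) ∂stdNormal d ≤
      exp (s * ∫ y, f y ∂stdNormal d + s ^ 2 * L ^ 2 / 2) := by
  rcases lt_trichotomy s 0 with hs | rfl | hs
  · have h1 := herbst h.neg (L := L) (fun y => by simpa [pd] using hg y) (neg_pos.2 hs)
    simpa [mgf, integral_neg] using h1
  · simp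
  · exact herbst h hg hs

theorem integrable_eval (d : ℕ) (j : Fin d) :
    Integrable (fun y : Fin d → ℝ => y j) (stdNormal d) :=
  ((measurePreserving_eval (fun _ : Fin d => gaussianReal 0 1) j).integrable_comp
    (g := fun x : ℝ => x) (by fun_prop)).2 ((memLp_id_gaussianReal 1).integrable le_rfl)

theorem EuclidLip.integrable {L : ℝ} (hL : 0 ≤ L) (hf : EuclidLip L f) :
    Integrable f (stdNormal d) := by
  refine Integrable.mono' ((integrable_const |f 0|).add ((integrable_finsetSum (Finset.univ :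
      Finset (Fin d)) fun j _ =>
    (integrable_eval d j).abs).const_mul L)) (hf.continuous hL).aestronglyMeasurable
    (Eventually.of_forall fun y => ?_)
  rw [norm_eq_abs]
  have h1 := hf y 0
  rw [sub_zero] at h1
  have h2 : eucl y ≤ ∑ j, |y j| := by
    refine sqrt_le_iff.2 ⟨sum_nonneg fun j _ => abs_nonneg _, ?_⟩
    refine le_of_eq_of_le (sum_congr rfl fun j _ => (sq_abs (y j)).symm) ?_
    rw [sq (∑ j, |y j|), sum_mul]
    refine sum_le_sum fun j _ => ?_
    rw [sq]
    exact mul_le_mul_of_nonneg_left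
      (single_le_sum (fun i _ => abs_nonneg (y i)) (mem_univ j)) (abs_nonneg _)
  have h3 := mul_le_mul_of_nonneg_left h2 hL
  simp only [Pi.add_apply]
  linarith [abs_sub_abs_le_abs_sub (f y) (f 0)]

theorem EuclidLip.mgf_bounded {L M : ℝ} (hL : 0 ≤ L) (hf : EuclidLip L f) (hM : ∀ x, |f x| ≤ M)
    (s : ℝ) : ∫ y, exp (s * f y) ∂stdNormal d ≤
      exp (s * ∫ y, f y ∂stdNormal d + s ^ 2 * L ^ 2 / 2) := by
  have hρ : ∀ n : ℕ, (0 : ℝ) < 1 / ((n : ℝ) + 1) := fun n => by positivity
  choose F F' hF hFL hFM hFd using fun n : ℕ => exists_smoothBounded hL hf hM (hρ n)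
  have hpt : ∀ y, Tendsto (fun n => F n y) atTop (𝓝 (f y)) := fun y => by
    refine tendsto_iff_dist_tendsto_zero.2 (squeeze_zero (fun n => dist_nonneg)
      (fun n => (Real.dist_eq _ _).trans_le (hFd n y)) ?_)
    simpa using (tendsto_one_div_add_atTop_nhds_zero_nat (𝕜 := ℝ)).const_mul (L * √d)
  have h1 : Tendsto (fun n => ∫ y, exp (s * F n y) ∂stdNormal d) atTop
      (𝓝 (∫ y, exp (s * f y) ∂stdNormal d)) := by
    refine tendsto_integral_of_dominated_convergence (fun _ => exp (|s| * M))
      (fun n => ((hF n).continuous.const_mul s).rexp.aestronglyMeasurable) (integrable_const _)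
      (fun n => Eventually.of_forall fun y => ?_) (Eventually.of_forall fun y => ?_)
    · rw [norm_eq_abs, abs_exp]
      refine exp_le_exp.2 ((le_abs_self _).trans ?_)
      rw [abs_mul]
      exact mul_le_mul_of_nonneg_left (hFM n y) (abs_nonneg s)
    · exact ((hpt y).const_mul s).rexp
  have h2 : Tendsto (fun n => ∫ y, F n y ∂stdNormal d) atTop (𝓝 (∫ y, f y ∂stdNormal d)) :=
    tendsto_integral_of_dominated_convergence (fun _ => M)
      (fun n => (hF n).continuous.aestronglyMeasurable) (integrable_const _)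
      (fun n => Eventually.of_forall fun y => hFM n y) (Eventually.of_forall hpt)
  refine le_of_tendsto_of_tendsto' h1 (((h2.const_mul s).add_const _).rexp) fun n => ?_
  exact herbst_all (hF n) (fun y => sum_pd_sq_le hL (hFL n) ((hF n).deriv_at y)) s

/-- The truncation to `[-R, R]`. -/
def truncate (R : ℕ) (x : ℝ) : ℝ := max (-(R : ℝ)) (min (R : ℝ) x)

theorem abs_truncate_le (R : ℕ) (x : ℝ) : |truncate R x| ≤ R :=
  abs_le.2 ⟨le_max_left _ _, max_le (neg_le_self R.cast_nonneg) (min_le_left _ _)⟩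

theorem abs_truncate_sub (R : ℕ) (x y : ℝ) : |truncate R x - truncate R y| ≤ |x - y| := by
  refine (abs_max_sub_max_le_max _ _ _ _).trans ?_
  rw [sub_self, abs_zero, max_eq_right (abs_nonneg _)]
  refine (abs_min_sub_min_le_max _ _ _ _).trans ?_
  rw [sub_self, abs_zero, max_eq_right (abs_nonneg _)]

theorem abs_truncate_le_abs (R : ℕ) (x : ℝ) : |truncate R x| ≤ |x| := by
  have h := abs_truncate_sub R x 0
  simpa [truncate] using h

theorem tendsto_truncate (x : ℝ) : Tendsto (fun R => truncate R x) atTop (𝓝 x) := by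
  obtain ⟨N, hN⟩ := exists_nat_ge |x|
  refine tendsto_atTop_of_eventually_const (i₀ := N) fun R hR => ?_
  have hx := abs_le.1 (hN.trans (Nat.cast_le.2 hR))
  rw [truncate, min_eq_right hx.2, max_eq_right hx.1]

/-- **The Gaussian concentration inequality**, exponential form. -/
theorem EuclidLip.mgf_le {L : ℝ} (hL : 0 ≤ L) (hf : EuclidLip L f) (s : ℝ) :
    Integrable (fun y => exp (s * (f y - ∫ x, f x ∂stdNormal d))) (stdNormal d) ∧
      ∫ y, exp (s * (f y - ∫ x, f x ∂stdNormal d)) ∂stdNormal d ≤ exp (s ^ 2 * L ^ 2 / 2) := by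
  set γ := stdNormal d
  set m := ∫ x, f x ∂γ
  have hfc := hf.continuous hL
  have hfi : Integrable f γ := hf.integrable hL
  have htc : ∀ R, Continuous fun y => truncate R (f y) := fun R =>
    continuous_const.max (continuous_const.min hfc)
  set mR : ℕ → ℝ := fun R => ∫ y, truncate R (f y) ∂γ
  have hm : Tendsto mR atTop (𝓝 m) :=
    tendsto_integral_of_dominated_convergence (fun y => |f y|)
      (fun R => (htc R).aestronglyMeasurable) hfi.abs
      (fun R => Eventually.of_forall fun y => abs_truncate_le_abs R (f y))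
      (Eventually.of_forall fun y => tendsto_truncate (f y))
  set g : ℕ → (Fin d → ℝ) → ℝ := fun R y => exp (s * (truncate R (f y) - mR R))
  have hgc : ∀ R, Continuous (g R) := fun R => (((htc R).sub continuous_const).const_mul s).rexp
  have hbound : ∀ R, ∫⁻ y, ENNReal.ofReal (g R y) ∂γ ≤ ENNReal.ofReal (exp (s ^ 2 * L ^ 2 / 2))
      := by
    intro R
    have hlip : EuclidLip L fun y => truncate R (f y) := fun x y =>
      (abs_truncate_sub R _ _).trans (hf x y)
    have h := hlip.mgf_bounded hL (M := R) (fun x => abs_truncate_le R _) s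
    have e : ∀ y, g R y = exp (-(s * mR R)) * exp (s * truncate R (f y)) := fun y => by
      simp only [g, mul_sub, ← exp_add]
      ring_nf
    have hi : Integrable (fun y => exp (s * truncate R (f y))) γ := by
      refine Integrable.of_bound ((htc R).const_mul s).rexp.aestronglyMeasurable (exp (|s| * R))
        (Eventually.of_forall fun y => ?_)
      rw [norm_eq_abs, abs_exp]
      refine exp_le_exp.2 ((le_abs_self _).trans ?_)
      rw [abs_mul]
      exact mul_le_mul_of_nonneg_left (abs_truncate_le R _) (abs_nonneg s)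
    have hgi : Integrable (g R) γ :=
      (hi.const_mul (exp (-(s * mR R)))).congr (Eventually.of_forall fun y => (e y).symm)
    rw [← ofReal_integral_eq_lintegral_ofReal hgi (Eventually.of_forall fun y => (exp_pos _).le)]
    refine ENNReal.ofReal_le_ofReal ?_
    rw [integral_congr_ae (Eventually.of_forall e), integral_const_mul]
    refine (mul_le_mul_of_nonneg_left h (exp_pos _).le).trans_eq ?_
    rw [← exp_add]
    congr 1
    simp only [mR, γ]
    ring
  have hlim : ∀ y, Tendsto (fun R => ENNReal.ofReal (g R y)) atTop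
      (𝓝 (ENNReal.ofReal (exp (s * (f y - m))))) := fun y =>
    ENNReal.tendsto_ofReal (((tendsto_truncate (f y)).sub hm).const_mul s).rexp
  have hfatou : ∫⁻ y, ENNReal.ofReal (exp (s * (f y - m))) ∂γ ≤
      ENNReal.ofReal (exp (s ^ 2 * L ^ 2 / 2)) := by
    calc ∫⁻ y, ENNReal.ofReal (exp (s * (f y - m))) ∂γ
        = ∫⁻ y, liminf (fun R => ENNReal.ofReal (g R y)) atTop ∂γ :=
          lintegral_congr fun y => (hlim y).liminf_eq.symm
      _ ≤ liminf (fun R => ∫⁻ y, ENNReal.ofReal (g R y) ∂γ) atTop :=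
          lintegral_liminf_le fun R => (hgc R).measurable.ennreal_ofReal
      _ ≤ _ := (liminf_le_liminf (Eventually.of_forall hbound)).trans_eq (liminf_const _)
  have hce : Continuous fun y => exp (s * (f y - m)) := ((hfc.sub continuous_const).const_mul
      s).rexp
  have hi : Integrable (fun y => exp (s * (f y - m))) γ :=
    ⟨hce.aestronglyMeasurable, (hasFiniteIntegral_iff_ofReal
      (Eventually.of_forall fun y => (exp_pos _).le)).2 (hfatou.trans_lt ENNReal.ofReal_lt_top)⟩
  refine ⟨hi, (ENNReal.ofReal_le_ofReal_iff (exp_pos _).le).1 ?_⟩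
  rw [ofReal_integral_eq_lintegral_ofReal hi (Eventually.of_forall fun y => (exp_pos _).le)]
  exact hfatou

/-- **The Gaussian concentration inequality**, tail form. -/
theorem EuclidLip.tail_le {L : ℝ} (hL : 0 ≤ L) (hf : EuclidLip L f) {r : ℝ} (hr : 0 ≤ r) :
    (stdNormal d).real {y | r ≤ f y - ∫ x, f x ∂stdNormal d} ≤ exp (-r ^ 2 / (2 * L ^ 2)) := by
  rcases hL.eq_or_lt with rfl | hL'
  · simp [measureReal_le_one]
  obtain ⟨hi, hle⟩ := hf.mgf_le hL (r / L ^ 2)
  refine (measure_ge_le_exp_mul_mgf (X := fun y => f y - ∫ x, f x ∂stdNormal d) r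
    (div_nonneg hr (sq_nonneg L)) hi).trans ?_
  refine (mul_le_mul_of_nonneg_left hle (exp_pos _).le).trans_eq ?_
  rw [← exp_add]
  congr 1
  field_simp
  ring

section Euclidean

open scoped NNReal

variable {E : Type*} [NormedAddCommGroup E] [InnerProductSpace ℝ E] [FiniteDimensional ℝ E]
  [MeasurableSpace E] [BorelSpace E]

omit [MeasurableSpace E] [BorelSpace E] in
theorem euclidLip_comp {K : ℝ≥0} {g : E → ℝ} (hg : LipschitzWith K g) :
    EuclidLip (K : ℝ)
      fun x : Fin (Module.finrank ℝ E) → ℝ => g (∑ i, x i • stdOrthonormalBasis ℝ E i) := by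
  intro x y
  refine (hg.norm_sub_le _ _).trans (le_of_eq ?_)
  set v := x - y
  rw [eucl, ← sum_sub_distrib, sum_congr rfl fun i _ =>
    show x i • stdOrthonormalBasis ℝ E i - y i • stdOrthonormalBasis ℝ E i =
      v i • stdOrthonormalBasis ℝ E i by rw [← sub_smul]; rfl]
  rw [← Real.sqrt_sq (norm_nonneg (∑ i, v i • stdOrthonormalBasis ℝ E i)),
    ← real_inner_self_eq_norm_sq, (stdOrthonormalBasis ℝ E).orthonormal.inner_sum v v univ]
  simp [sq]

/-- **Gaussian concentration** on a Euclidean space, exponential form. -/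
theorem stdGaussian_mgf_le {K : ℝ≥0} {g : E → ℝ} (hg : LipschitzWith K g) (s : ℝ) :
    Integrable (fun x => exp (s * (g x - ∫ y, g y ∂stdGaussian E))) (stdGaussian E) ∧
      ∫ x, exp (s * (g x - ∫ y, g y ∂stdGaussian E)) ∂stdGaussian E ≤
        exp (s ^ 2 * (K : ℝ) ^ 2 / 2) := by
  set φ : (Fin (Module.finrank ℝ E) → ℝ) → E := fun x => ∑ i, x i • stdOrthonormalBasis ℝ E i
  have hφ : Continuous φ := by fun_prop
  have e : stdGaussian E = (stdNormal (Module.finrank ℝ E)).map φ := rfl
  have hgc := hg.continuous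
  have hm : ∫ y, g y ∂stdGaussian E = ∫ x, g (φ x) ∂stdNormal (Module.finrank ℝ E) := by
    rw [e]
    exact integral_map (f := g) hφ.aemeasurable hgc.aestronglyMeasurable
  obtain ⟨hi, hle⟩ := (euclidLip_comp hg).mgf_le K.coe_nonneg s
  rw [hm]
  set c := ∫ x, g (φ x) ∂stdNormal (Module.finrank ℝ E)
  have hc : Continuous fun x => exp (s * (g x - c)) :=
    ((hgc.sub continuous_const).const_mul s).rexp
  refine ⟨?_, ?_⟩
  · rw [e, integrable_map_measure hc.aestronglyMeasurable hφ.aemeasurable]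
    exact hi
  · rw [e, integral_map (f := fun x => exp (s * (g x - c))) hφ.aemeasurable hc.aestronglyMeasurable]
    exact hle

/-- **Gaussian concentration** on a Euclidean space, tail form. -/
theorem stdGaussian_tail_le {K : ℝ≥0} {g : E → ℝ} (hg : LipschitzWith K g) {r : ℝ} (hr : 0 ≤ r) :
    (stdGaussian E).real {x | r ≤ g x - ∫ y, g y ∂stdGaussian E} ≤
      exp (-r ^ 2 / (2 * (K : ℝ) ^ 2)) := by
  rcases K.coe_nonneg.eq_or_lt with hK | hK
  · simp [← hK, measureReal_le_one]
  obtain ⟨hi, hle⟩ := stdGaussian_mgf_le hg (r / (K : ℝ) ^ 2)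
  refine (measure_ge_le_exp_mul_mgf (X := fun x => g x - ∫ y, g y ∂stdGaussian E) r
    (div_nonneg hr (sq_nonneg (K : ℝ))) hi).trans ?_
  refine (mul_le_mul_of_nonneg_left hle (exp_pos _).le).trans_eq ?_
  rw [← exp_add]
  congr 1
  field_simp
  ring

end Euclidean

end FA.LogSobolev
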