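import Mathlib.Analysis.SpecialFunctions.Log.NegMulLog
import Mathlib.Analysis.SpecialFunctions.Trigonometric.DerivHyp
import Mathlib.Analysis.Real.Sqrt
import Mathlib.Algebra.BigOperators.Fin
import Mathlib.Algebra.BigOperators.Field
import Mathlib.Algebra.Order.Chebyshev

/-!
# The inequalities on the cube

Gross's two point inequality and induction on the dimension: the entropy of the two square means
over the halves is controlled by the triangle inequality in `ℓ²`.
-/

set_option autoImplicit false

noncomputable section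

namespace FA.LogSobolev

open Finset Real

/-- The mean over a finite type. -/
def avg {α : Type*} [Fintype α] (g : α → ℝ) : ℝ := (Fintype.card α : ℝ)⁻¹ * ∑ x, g x

/-- The entropy of a non-negative function for the uniform law. -/
def ent {α : Type*} [Fintype α] (g : α → ℝ) : ℝ :=
  negMulLog (avg g) - avg fun x => negMulLog (g x)

/-- The point with the coordinate `i` changed. -/
def flipAt {ι : Type*} [DecidableEq ι] (i : ι) (x : ι → Bool) : ι → Bool :=
  Function.update x i (!x i)

/-- The sum over the coordinates of the mean square of the differences. -/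
def energy {ι : Type*} [Fintype ι] [DecidableEq ι] (f : (ι → Bool) → ℝ) : ℝ :=
  ∑ i, avg fun x => (f (flipAt i x) - f x) ^ 2

theorem log_le_sub_div_sqrt {x : ℝ} (hx : 1 ≤ x) : log x ≤ (x - 1) / √x := by
  have hy : 1 ≤ √x := Real.one_le_sqrt.2 hx
  have hy0 : 0 < √x := by linarith
  have h := self_le_sinh_iff.2 (log_nonneg hy)
  rw [sinh_log hy0] at h
  have e : log x = 2 * log √x := by
    rw [log_sqrt (by linarith)]
    ring
  have e2 : (x - 1) / √x = √x - (√x)⁻¹ := by
    rw [div_eq_iff hy0.ne', sub_mul, inv_mul_cancel₀ hy0.ne', Real.mul_self_sqrt (by linarith)]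
  linarith

/-- The two point inequality for ordered non-negative values. -/
theorem two_point_nonneg {a b : ℝ} (hb : 0 ≤ b) (hab : b ≤ a) :
    negMulLog ((a ^ 2 + b ^ 2) / 2) - (negMulLog (a ^ 2) + negMulLog (b ^ 2)) / 2 ≤
      (a - b) ^ 2 / 2 := by
  set h : ℝ → ℝ := fun x =>
    negMulLog ((x ^ 2 + b ^ 2) / 2) - (negMulLog (x ^ 2) + negMulLog (b ^ 2)) / 2 - (x - b) ^ 2 / 2
  have hc : Continuous h := by
    simp only [h]
    fun_prop
  have hd : ∀ x, b < x → HasDerivAt h
      (x * log (x ^ 2) - x * log ((x ^ 2 + b ^ 2) / 2) - (x - b)) x := by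
    intro x hx
    have hx0 : 0 < x := hb.trans_lt hx
    have hm : (x ^ 2 + b ^ 2) / 2 ≠ 0 := by positivity
    have h1 := (hasDerivAt_negMulLog hm).comp x
      (((hasDerivAt_pow 2 x).add_const (b ^ 2)).div_const 2)
    have h2 := (hasDerivAt_negMulLog (x := x ^ 2) (pow_ne_zero 2 hx0.ne')).comp (h := fun y : ℝ
        => y ^ 2) x (hasDerivAt_pow 2 x)
    have h3 := (((hasDerivAt_id x).sub_const b).pow 2).div_const 2
    refine ((h1.sub ((h2.add_const (negMulLog (b ^ 2))).div_const 2)).sub h3).congr_deriv ?_
    simp only [id_eq]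
    push_cast
    ring
  have hanti : AntitoneOn h (Set.Ici b) := by
    refine antitoneOn_of_deriv_nonpos (convex_Ici b) hc.continuousOn ?_ ?_
    · rw [interior_Ici]
      exact fun x hx => (hd x hx).differentiableAt.differentiableWithinAt
    · rw [interior_Ici]
      intro x hx
      have hx' : b < x := hx
      have hx0 : 0 < x := hb.trans_lt hx'
      rw [(hd x hx').deriv, sub_nonpos]
      have hm : 0 < (x ^ 2 + b ^ 2) / 2 := by positivity
      set q := x ^ 2 / ((x ^ 2 + b ^ 2) / 2)
      have hq : 1 ≤ q := (one_le_div hm).2 (by nlinarith)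
      have e : x * log (x ^ 2) - x * log ((x ^ 2 + b ^ 2) / 2) = x * log q := by
        rw [log_div (by positivity) hm.ne']
        ring
      have hsq : √q = x / √((x ^ 2 + b ^ 2) / 2) := by
        rw [Real.sqrt_div (by positivity), Real.sqrt_sq hx0.le]
      have hs : 0 < √((x ^ 2 + b ^ 2) / 2) := Real.sqrt_pos.2 hm
      have hs2 : (x + b) / 2 ≤ √((x ^ 2 + b ^ 2) / 2) :=
        Real.le_sqrt_of_sq_le (by nlinarith [sq_nonneg (x - b)])
      have e2 : x * ((q - 1) / √q) = (x - b) * ((x + b) / 2) / √((x ^ 2 + b ^ 2) / 2) := by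
        rw [hsq]
        simp only [q]
        field_simp
        rw [Real.sq_sqrt hm.le]
        ring
      rw [e]
      refine (mul_le_mul_of_nonneg_left (log_le_sub_div_sqrt hq) hx0.le).trans ?_
      rw [e2, div_le_iff₀ hs]
      exact mul_le_mul_of_nonneg_left hs2 (by linarith)
  have h0 : h b = 0 := by
    simp only [h]
    rw [show (b ^ 2 + b ^ 2) / 2 = b ^ 2 by ring]
    ring
  have := hanti Set.self_mem_Ici hab hab
  rw [h0] at this
  simp only [h] at this
  linarith

/-- **The two point inequality of Gross.** -/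
theorem two_point (a b : ℝ) :
    negMulLog ((a ^ 2 + b ^ 2) / 2) - (negMulLog (a ^ 2) + negMulLog (b ^ 2)) / 2 ≤
      (a - b) ^ 2 / 2 := by
  have hle : (|a| - |b|) ^ 2 ≤ (a - b) ^ 2 := sq_le_sq.2 (abs_abs_sub_abs_le_abs_sub a b)
  rcases le_total |b| |a| with h | h
  · have := two_point_nonneg (abs_nonneg b) h
    rw [sq_abs, sq_abs] at this
    linarith
  · have := two_point_nonneg (abs_nonneg a) h
    rw [sq_abs, sq_abs, add_comm (b ^ 2), add_comm (negMulLog (b ^ 2)),
      show (|b| - |a|) ^ 2 = (|a| - |b|) ^ 2 by ring] at this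
    linarith

variable {α β : Type*} [Fintype α] [Fintype β]

theorem avg_add (g h : α → ℝ) : (avg fun x => g x + h x) = avg g + avg h := by
  simp only [avg, sum_add_distrib, mul_add]

theorem avg_mono {g h : α → ℝ} (hgh : ∀ x, g x ≤ h x) : avg g ≤ avg h :=
  mul_le_mul_of_nonneg_left (sum_le_sum fun x _ => hgh x) (by positivity)

theorem avg_nonneg {g : α → ℝ} (hg : ∀ x, 0 ≤ g x) : 0 ≤ avg g :=
  mul_nonneg (by positivity) (sum_nonneg fun x _ => hg x)

theorem avg_equiv (e : α ≃ β) (g : β → ℝ) : (avg fun x => g (e x)) = avg g := by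
  rw [avg, avg, Fintype.card_congr e, e.sum_comp g]

theorem avg_cons {N : ℕ} (g : (Fin (N + 1) → Bool) → ℝ) :
    avg g = ((avg fun y => g (Fin.cons true y)) + avg fun y => g (Fin.cons false y)) / 2 := by
  rw [← avg_equiv (Fin.consEquiv fun _ : Fin (N + 1) => Bool) g]
  have e : ∀ p, (Fin.consEquiv fun _ : Fin (N + 1) => Bool) p = Fin.cons p.1 p.2 := fun _ => rfl
  simp only [avg, Fintype.card_prod, Fintype.card_bool, Fintype.sum_prod_type, Fintype.sum_bool,
    e]
  push_cast
  rw [mul_inv]
  ring

/-- The triangle inequality in `ℓ²`. -/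
theorem sq_sqrt_avg_sub (u v : α → ℝ) :
    (√(avg fun x => u x ^ 2) - √(avg fun x => v x ^ 2)) ^ 2 ≤ avg fun x => (u x - v x) ^ 2 := by
  have hu := avg_nonneg (g := fun x => u x ^ 2) fun x => sq_nonneg _
  have hv := avg_nonneg (g := fun x => v x ^ 2) fun x => sq_nonneg _
  have hcs : (avg fun x => u x * v x) ≤ √(avg fun x => u x ^ 2) * √(avg fun x => v x ^ 2) := by
    set c : ℝ := (Fintype.card α : ℝ)⁻¹
    have hc : 0 ≤ c := by positivity
    calc (avg fun x => u x * v x) ≤ c * (√(∑ x, u x ^ 2) * √(∑ x, v x ^ 2)) :=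
          mul_le_mul_of_nonneg_left (Real.sum_mul_le_sqrt_mul_sqrt univ u v) hc
      _ = √(avg fun x => u x ^ 2) * √(avg fun x => v x ^ 2) := by
          rw [avg, avg, Real.sqrt_mul hc, Real.sqrt_mul hc, mul_mul_mul_comm,
            Real.mul_self_sqrt hc]
  have e : (avg fun x => (u x - v x) ^ 2) =
      (avg fun x => u x ^ 2) + (avg fun x => v x ^ 2) - 2 * avg fun x => u x * v x := by
    simp only [avg, mul_sum, ← sum_add_distrib, ← sum_sub_distrib]
    exact sum_congr rfl fun x _ => by ring
  rw [e, sub_sq, Real.sq_sqrt hu, Real.sq_sqrt hv]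
  linarith

theorem energy_cons {N : ℕ} (f : (Fin (N + 1) → Bool) → ℝ) :
    energy f = (avg fun y => (f (Fin.cons true y) - f (Fin.cons false y)) ^ 2) +
      (energy (fun y => f (Fin.cons true y)) + energy fun y => f (Fin.cons false y)) / 2 := by
  rw [energy, Fin.sum_univ_succ]
  congr 1
  · rw [avg_cons]
    simp only [flipAt, Fin.cons_zero, Fin.update_cons_zero, Bool.not_true, Bool.not_false]
    have e : (avg fun y : Fin N → Bool => (f (Fin.cons false y) - f (Fin.cons true y)) ^ 2) =
        avg fun y => (f (Fin.cons true y) - f (Fin.cons false y)) ^ 2 :=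
      congrArg avg (funext fun y => by ring)
    rw [e]
    ring
  · simp only [energy, ← sum_add_distrib, sum_div]
    refine sum_congr rfl fun i _ => ?_
    rw [avg_cons]
    simp only [flipAt, Fin.cons_succ, ← Fin.cons_update]

/-- The logarithmic Sobolev inequality on `Fin N → Bool`. -/
theorem ent_sq_le_fin : ∀ {N : ℕ} (f : (Fin N → Bool) → ℝ),
    ent (fun x => f x ^ 2) ≤ energy f / 2
  | 0, f => by simp [ent, energy, avg]
  | N + 1, f => by
    set u : (Fin N → Bool) → ℝ := fun y => f (Fin.cons true y)
    set v : (Fin N → Bool) → ℝ := fun y => f (Fin.cons false y)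
    have hu := avg_nonneg (g := fun y => u y ^ 2) fun y => sq_nonneg _
    have hv := avg_nonneg (g := fun y => v y ^ 2) fun y => sq_nonneg _
    have h2 := two_point √(avg fun y => u y ^ 2) √(avg fun y => v y ^ 2)
    rw [Real.sq_sqrt hu, Real.sq_sqrt hv] at h2
    have h3 := sq_sqrt_avg_sub u v
    have h4 := ent_sq_le_fin u
    have h5 := ent_sq_le_fin v
    simp only [ent] at h4 h5 ⊢
    rw [energy_cons, avg_cons (fun x => f x ^ 2), avg_cons (fun x => negMulLog (f x ^ 2))]
    linarith

/-- **The logarithmic Sobolev inequality of Gross on the cube.** -/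
theorem ent_sq_le {ι : Type*} [Fintype ι] [DecidableEq ι] (f : (ι → Bool) → ℝ) :
    ent (fun x => f x ^ 2) ≤ energy f / 2 := by
  classical
  set e := Fintype.equivFin ι
  set E : (Fin (Fintype.card ι) → Bool) ≃ (ι → Bool) := e.arrowCongr (Equiv.refl Bool) |>.symm
  have h := ent_sq_le_fin fun x => f (E x)
  have he : energy (fun x => f (E x)) = energy f := by
    rw [energy, energy, ← e.sum_comp]
    refine sum_congr rfl fun i _ => ?_
    rw [← avg_equiv E]
    refine congrArg avg (funext fun x => ?_)
    have : E (flipAt (e i) x) = flipAt i (E x) := by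
      funext j
      by_cases hj : j = i
      · subst hj
        simp [E, flipAt]
      · simp [E, flipAt, hj]
    rw [this]
  have ha : ent (fun x => f (E x) ^ 2) = ent fun x => f x ^ 2 := by
    rw [ent, ent, avg_equiv E fun x => f x ^ 2, avg_equiv E fun x => negMulLog (f x ^ 2)]
  linarith

/-- The Poincaré inequality on `Fin N → Bool`. -/
theorem poincare_fin : ∀ {N : ℕ} (f : (Fin N → Bool) → ℝ),
    (avg fun x => f x ^ 2) - avg f ^ 2 ≤ energy f / 4
  | 0, f => by simp [energy, avg]
  | N + 1, f => by
    have h4 := poincare_fin fun y => f (Fin.cons true y)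
    have h5 := poincare_fin fun y => f (Fin.cons false y)
    set u : (Fin N → Bool) → ℝ := fun y => f (Fin.cons true y)
    set v : (Fin N → Bool) → ℝ := fun y => f (Fin.cons false y)
    have h3 : (avg u - avg v) ^ 2 ≤ avg fun y => (u y - v y) ^ 2 := by
      have e : avg u - avg v = avg fun y => u y - v y := by
        simp only [avg, mul_sub, sum_sub_distrib]
      have hc : ((Fintype.card (Fin N → Bool) : ℝ)) ≠ 0 := Nat.cast_ne_zero.2 Fintype.card_ne_zero
      rw [e, avg, avg, mul_pow, sq (Fintype.card (Fin N → Bool) : ℝ)⁻¹, mul_assoc]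
      refine mul_le_mul_of_nonneg_left ?_ (by positivity)
      rw [inv_mul_le_iff₀ (by positivity)]
      exact sq_sum_le_card_mul_sum_sq
    rw [energy_cons, avg_cons (fun x => f x ^ 2), avg_cons f]
    nlinarith

/-- **The Poincaré inequality on the cube.** -/
theorem poincare {ι : Type*} [Fintype ι] [DecidableEq ι] (f : (ι → Bool) → ℝ) :
    (avg fun x => f x ^ 2) - avg f ^ 2 ≤ energy f / 4 := by
  classical
  set e := Fintype.equivFin ι
  set E : (Fin (Fintype.card ι) → Bool) ≃ (ι → Bool) := e.arrowCongr (Equiv.refl Bool) |>.symm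
  have h := poincare_fin fun x => f (E x)
  have he : energy (fun x => f (E x)) = energy f := by
    rw [energy, energy, ← e.sum_comp]
    refine sum_congr rfl fun i _ => ?_
    rw [← avg_equiv E]
    refine congrArg avg (funext fun x => ?_)
    have : E (flipAt (e i) x) = flipAt i (E x) := by
      funext j
      by_cases hj : j = i
      · subst hj
        simp [E, flipAt]
      · simp [E, flipAt, hj]
    rw [this]
  rw [avg_equiv E fun x => f x ^ 2, avg_equiv E f, he] at h
  exact h

end FA.LogSobolev
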