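import Fermat.Agent.LogSobolev.Limit
import Mathlib.Analysis.Calculus.MeanValue
import Mathlib.Analysis.SpecialFunctions.Sqrt

/-!
# The Gaussian inequalities

A change of one sign moves a block sum by `2 / √n`; so the energy on the cube tends to at most four
times the Dirichlet form, and the inequalities on the cube give those for the Gaussian measure.
-/

set_option autoImplicit false

noncomputable section

namespace FA.LogSobolev

open MeasureTheory Filter Topology Finset Real

variable {d : ℕ} {f : (Fin d → ℝ) → ℝ} {f' : (Fin d → ℝ) → (Fin d → ℝ) →L[ℝ] ℝ}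

/-- A smooth function with the bounds needed for the limit. -/
structure SmoothBounded (f : (Fin d → ℝ) → ℝ) (f' : (Fin d → ℝ) → (Fin d → ℝ) →L[ℝ] ℝ) :
    Prop where
  deriv_at : ∀ x, HasFDerivAt f (f' x) x
  bounded : ∃ C, ∀ x, |f x| ≤ C
  deriv_bounded : ∃ C, ∀ x, ‖f' x‖ ≤ C
  deriv_unif : UniformContinuous f'

/-- The partial derivative. -/
def pd (f' : (Fin d → ℝ) → (Fin d → ℝ) →L[ℝ] ℝ) (j : Fin d) (y : Fin d → ℝ) : ℝ :=
  f' y (Pi.single j 1)

theorem SmoothBounded.continuous (h : SmoothBounded f f') : Continuous f :=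
  continuous_iff_continuousAt.2 fun x => (h.deriv_at x).continuousAt

theorem SmoothBounded.continuous_pd (h : SmoothBounded f f') (j : Fin d) : Continuous (pd f' j) :=
  h.deriv_unif.continuous.clm_apply continuous_const

theorem norm_single_one (j : Fin d) : ‖(Pi.single j 1 : Fin d → ℝ)‖ ≤ 1 := by
  rw [pi_norm_le_iff_of_nonneg zero_le_one]
  intro i
  rcases eq_or_ne i j with rfl | hij <;> simp [*]

theorem SmoothBounded.abs_pd_le (h : SmoothBounded f f') :
    ∃ C, ∀ j y, |pd f' j y| ≤ C := by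
  obtain ⟨C, hC⟩ := h.deriv_bounded
  exact ⟨C, fun j y => ((f' y).le_opNorm _).trans ((mul_le_mul (hC y) (norm_single_one j)
    (norm_nonneg _) ((norm_nonneg _).trans (hC y))).trans_eq (mul_one C))⟩

theorem cubeSum_flip {n : ℕ} (x : Fin d × Fin n → Bool) (j : Fin d) (k : Fin n) :
    cubeSum n (flipAt (j, k) x) =
      cubeSum n x + ((√n)⁻¹ * (-2 * sgn (x (j, k)))) • Pi.single j 1 := by
  funext i
  simp only [cubeSum, Pi.add_apply, Pi.smul_apply, smul_eq_mul]
  rcases eq_or_ne i j with rfl | hij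
  · rw [Pi.single_eq_same, mul_one, ← mul_add]
    congr 1
    rw [← sub_eq_iff_eq_add', ← sum_sub_distrib, sum_eq_single_of_mem k (mem_univ k)]
    · cases hb : x (i, k) <;> norm_num [flipAt, sgn, hb]
    · intro l _ hl
      simp [flipAt, Prod.ext_iff, hl]
  · rw [Pi.single_eq_of_ne hij, mul_zero, add_zero]
    refine congrArg _ (sum_congr rfl fun l _ => ?_)
    simp [flipAt, Prod.ext_iff, hij]

theorem energy_le {η δ : ℝ} (hη : 0 ≤ η) (h : SmoothBounded f f')
    (hδ : ∀ y z, dist y z ≤ δ → ‖f' y - f' z‖ ≤ η) {n : ℕ} (hn : 0 < n) (hn' : 2 / √n ≤ δ) :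
    energy (fun x : Fin d × Fin n → Bool => f (cubeSum n x)) ≤
      4 * avg fun x : Fin d × Fin n → Bool => ∑ j, (|pd f' j (cubeSum n x)| + η) ^ 2 := by
  have hs : 0 < √(n : ℝ) := Real.sqrt_pos.2 (Nat.cast_pos.2 hn)
  have hstep : ∀ (j : Fin d) (k : Fin n) (x : Fin d × Fin n → Bool),
      (f (cubeSum n (flipAt (j, k) x)) - f (cubeSum n x)) ^ 2 ≤
        4 / n * (|pd f' j (cubeSum n x)| + η) ^ 2 := by
    intro j k x
    set y := cubeSum n x
    set c := (√(n : ℝ))⁻¹ * (-2 * sgn (x (j, k)))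
    have hc : |c| = 2 / √n := by
      simp only [c, abs_mul, abs_inv, abs_of_pos hs]
      cases x (j, k) <;> norm_num [sgn] <;> ring
    have hdist : ‖c • (Pi.single j 1 : Fin d → ℝ)‖ ≤ |c| := by
      rw [norm_smul, Real.norm_eq_abs]
      exact mul_le_of_le_one_right (abs_nonneg c) (norm_single_one j)
    have hmv := (convex_closedBall y |c|).norm_image_sub_le_of_norm_hasFDerivWithin_le'
      (f := f) (f' := f') (φ := f' y) (C := η)
      (fun z _ => (h.deriv_at z).hasFDerivWithinAt)
      (fun z hz => hδ z y (le_trans (Metric.mem_closedBall.1 hz) (hc.le.trans hn')))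
      (Metric.mem_closedBall_self (abs_nonneg c))
      (y := y + c • Pi.single j 1) (by simpa [Metric.mem_closedBall, dist_eq_norm] using hdist)
    rw [add_sub_cancel_left, map_smul, smul_eq_mul, Real.norm_eq_abs] at hmv
    have habs : |f (y + c • Pi.single j 1) - f y| ≤ |c| * (|pd f' j y| + η) := by
      have h1 := abs_sub_abs_le_abs_sub (f (y + c • Pi.single j 1) - f y) (c * pd f' j y)
      rw [abs_mul] at h1
      have h2 := mul_le_mul_of_nonneg_left hdist hη
      simp only [pd] at hmv h1 ⊢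
      linarith
    rw [cubeSum_flip, ← sq_abs]
    refine (pow_le_pow_left₀ (abs_nonneg _) habs 2).trans_eq ?_
    rw [mul_pow, hc, div_pow, Real.sq_sqrt (Nat.cast_nonneg n)]
    norm_num
  calc energy (fun x : Fin d × Fin n → Bool => f (cubeSum n x))
      ≤ ∑ p : Fin d × Fin n, avg fun x : Fin d × Fin n → Bool =>
          4 / n * (|pd f' p.1 (cubeSum n x)| + η) ^ 2 :=
        sum_le_sum fun p _ => avg_mono fun x => hstep p.1 p.2 x
    _ = _ := by
      rw [Fintype.sum_prod_type]
      simp only [sum_const, card_univ, Fintype.card_fin, nsmul_eq_mul, avg, mul_sum]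
      rw [sum_comm]
      refine sum_congr rfl fun x _ => sum_congr rfl fun j _ => ?_
      field_simp

/-- The limit of a bounded continuous function of the block sums. -/
theorem tendsto_avg' (F : (Fin d → ℝ) → ℝ) (hF : Continuous F) {C : ℝ} (hC : ∀ y, |F y| ≤ C) :
    Tendsto (fun n => avg fun x : Fin d × Fin n → Bool => F (cubeSum n x)) atTop
      (𝓝 (∫ y, F y ∂stdNormal d)) :=
  tendsto_avg d (BoundedContinuousFunction.ofNormedAddCommGroup F hF C fun y => hC y)

theorem exists_bound_comp {φ : ℝ → ℝ} (hφ : Continuous φ) (hb : ∃ C, ∀ x, |f x| ≤ C) :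
    ∃ C, ∀ x, |φ (f x)| ≤ C := by
  obtain ⟨C, hC⟩ := hb
  obtain ⟨M, hM⟩ := (isCompact_Icc (a := -C) (b := C)).exists_bound_of_continuousOn hφ.continuousOn
  exact ⟨M, fun x => hM _ (abs_le.1 (hC x))⟩

/-- Passage to the limit in an inequality with the energy. -/
theorem le_dirichlet (h : SmoothBounded f f') {A : ℕ → ℝ} {a c : ℝ} (hc : 0 ≤ c)
    (hA : Tendsto A atTop (𝓝 a))
    (hle : ∀ n, A n ≤ c * energy fun x : Fin d × Fin n → Bool => f (cubeSum n x)) :
    a ≤ 4 * c * ∫ y, ∑ j, pd f' j y ^ 2 ∂stdNormal d := by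
  obtain ⟨C, hC⟩ := h.abs_pd_le
  have hkey : ∀ η : ℝ, 0 < η → η ≤ 1 → a ≤ 4 * c * ∫ y, ∑ j, (|pd f' j y| + η) ^ 2 ∂stdNormal d
      := by
    intro η hη hη1
    obtain ⟨δ, hδ, hu⟩ := Metric.uniformContinuous_iff.1 h.deriv_unif η hη
    have hlim := tendsto_avg' (fun y : Fin d → ℝ => ∑ j, (|pd f' j y| + η) ^ 2)
      (continuous_finsetSum _ fun j _ => ((h.continuous_pd j).abs.add continuous_const).pow 2)
      (C := ∑ _j : Fin d, (C + 1) ^ 2) fun y => by
        rw [abs_of_nonneg (sum_nonneg fun j _ => sq_nonneg _)]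
        exact sum_le_sum fun j _ => pow_le_pow_left₀ (by positivity) (by linarith [hC j y]) 2
    refine le_of_tendsto_of_tendsto hA (hlim.const_mul (4 * c)) ?_
    have hn := (Real.tendsto_sqrt_atTop.comp (tendsto_natCast_atTop_atTop (R :=
        ℝ))).const_div_atTop 2
    filter_upwards [hn.eventually_lt_const hδ, eventually_gt_atTop 0] with n hn hn0
    refine (hle n).trans ?_
    rw [mul_comm 4 c, mul_assoc]
    refine mul_le_mul_of_nonneg_left (energy_le hη.le h (δ := 2 / √n) (fun y z hyz => ?_) hn0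
      le_rfl) hc
    rw [← dist_eq_norm]
    exact (hu (lt_of_le_of_lt hyz hn)).le
  have hdom : Tendsto (fun m : ℕ => ∫ y, ∑ j, (|pd f' j y| + 1 / ((m : ℝ) + 1)) ^ 2 ∂stdNormal d)
      atTop (𝓝 (∫ y, ∑ j, pd f' j y ^ 2 ∂stdNormal d)) := by
    refine tendsto_integral_of_dominated_convergence (fun _ => ∑ _j : Fin d, (C + 1) ^ 2)
      (fun m => (continuous_finsetSum _ fun j _ =>
        ((h.continuous_pd j).abs.add continuous_const).pow 2).aestronglyMeasurable)
      (integrable_const _) (fun m => Eventually.of_forall fun y => ?_)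
      (Eventually.of_forall fun y => ?_)
    · rw [Real.norm_eq_abs, abs_of_nonneg (sum_nonneg fun j _ => sq_nonneg _)]
      refine sum_le_sum fun j _ => pow_le_pow_left₀ (by positivity) ?_ 2
      have : 1 / ((m : ℝ) + 1) ≤ 1 := by
        rw [div_le_one (by positivity)]
        linarith [m.cast_nonneg (α := ℝ)]
      linarith [hC j y]
    · refine tendsto_finsetSum _ fun j _ => ?_
      simpa using ((tendsto_one_div_add_atTop_nhds_zero_nat (𝕜 := ℝ)).const_add |pd f' j y|).pow 2
  refine ge_of_tendsto (hdom.const_mul (4 * c)) (Eventually.of_forall fun m => hkey _ (by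
      positivity) ?_)
  rw [div_le_one (by positivity)]
  linarith [m.cast_nonneg (α := ℝ)]

/-- **The logarithmic Sobolev inequality of Gross.** -/
theorem gaussian_lsi (h : SmoothBounded f f') :
    ∫ y, f y ^ 2 * log (f y ^ 2) ∂stdNormal d -
        (∫ y, f y ^ 2 ∂stdNormal d) * log (∫ y, f y ^ 2 ∂stdNormal d) ≤
      2 * ∫ y, ∑ j, pd f' j y ^ 2 ∂stdNormal d := by
  obtain ⟨C₁, hC₁⟩ := exists_bound_comp (φ := fun u => u ^ 2) (by fun_prop) h.bounded
  obtain ⟨C₂, hC₂⟩ := exists_bound_comp (φ := fun u => negMulLog (u ^ 2)) (by fun_prop) h.bounded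
  have h1 := tendsto_avg' (fun y => f y ^ 2) (h.continuous.pow 2) hC₁
  have h2 := tendsto_avg' (fun y => negMulLog (f y ^ 2))
    (continuous_negMulLog.comp (h.continuous.pow 2)) hC₂
  have hlim := ((continuous_negMulLog.tendsto _).comp h1).sub h2
  have hle := le_dirichlet h (c := 1 / 2) (by norm_num) hlim fun n => by
    have := ent_sq_le fun x : Fin d × Fin n → Bool => f (cubeSum n x)
    simp only [ent] at this
    simp only [Function.comp_apply]
    linarith
  have e : ∫ y, negMulLog (f y ^ 2) ∂stdNormal d = -∫ y, f y ^ 2 * log (f y ^ 2) ∂stdNormal d := by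
    rw [← integral_neg]
    exact integral_congr_ae (Eventually.of_forall fun y => by simp [negMulLog])
  rw [e] at hle
  simp only [negMulLog] at hle
  linarith

/-- **The Gaussian Poincaré inequality.** -/
theorem gaussian_poincare (h : SmoothBounded f f') :
    ∫ y, f y ^ 2 ∂stdNormal d - (∫ y, f y ∂stdNormal d) ^ 2 ≤
      ∫ y, ∑ j, pd f' j y ^ 2 ∂stdNormal d := by
  obtain ⟨C₁, hC₁⟩ := exists_bound_comp (φ := fun u => u ^ 2) (by fun_prop) h.bounded
  obtain ⟨C, hC⟩ := h.bounded
  have hlim := (tendsto_avg' (fun y => f y ^ 2) (h.continuous.pow 2) hC₁).sub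
    ((tendsto_avg' f h.continuous hC).pow 2)
  have hle := le_dirichlet h (c := 1 / 4) (by norm_num) hlim fun n => by
    have := poincare fun x : Fin d × Fin n → Bool => f (cubeSum n x)
    linarith
  linarith

end FA.LogSobolev
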