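import Fermat.Agent.LogSobolev.Cube
import Mathlib.MeasureTheory.Measure.FiniteMeasurePi
import Mathlib.Probability.CentralLimitTheorem
import Mathlib.MeasureTheory.Integral.Bochner.SumMeasure
import Mathlib.MeasureTheory.Integral.Pi

/-!
# From the cube to the Gaussian measure

Sums over `d` blocks of `n` signs, divided by `√n`, tend to `d` independent standard normal
variables.
-/

set_option autoImplicit false

noncomputable section

namespace FA.LogSobolev

open MeasureTheory ProbabilityTheory Filter Topology Finset
open scoped ENNReal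

/-- The standard Gaussian measure on `ℝ ^ d`. -/
def stdNormal (d : ℕ) : Measure (Fin d → ℝ) := Measure.pi fun _ => gaussianReal 0 1

instance (d : ℕ) : IsProbabilityMeasure (stdNormal d) :=
  inferInstanceAs (IsProbabilityMeasure (Measure.pi fun _ : Fin d => gaussianReal 0 1))

/-- The fair coin. -/
def coin : Measure Bool := (2 : ℝ≥0∞)⁻¹ • (Measure.dirac true + Measure.dirac false)

theorem coin_singleton (b : Bool) : coin {b} = 2⁻¹ := by
  cases b <;> simp [coin]

instance : IsProbabilityMeasure coin :=
  ⟨by simp [coin, ENNReal.inv_two_add_inv_two]⟩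

/-- The sign of a bit. -/
def sgn (b : Bool) : ℝ := if b then 1 else -1

theorem integral_coin (g : Bool → ℝ) : ∫ b, g b ∂coin = (g true + g false) / 2 := by
  rw [integral_fintype (Integrable.of_finite), Fintype.sum_bool]
  simp only [measureReal_def, coin_singleton, ENNReal.toReal_inv, ENNReal.toReal_ofNat, smul_eq_mul]
  ring

/-- The rescaled sums of the blocks. -/
def cubeSum {d : ℕ} (n : ℕ) (x : Fin d × Fin n → Bool) (j : Fin d) : ℝ :=
  (√n)⁻¹ * ∑ k, sgn (x (j, k))

/-- The law of one block. -/
def blockLaw (n : ℕ) : Measure ℝ :=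
  (Measure.pi fun _ : Fin n => coin).map fun w => (√n)⁻¹ * ∑ k, sgn (w k)

theorem measurable_blockSum (n : ℕ) :
    Measurable fun w : Fin n → Bool => (√n)⁻¹ * ∑ k, sgn (w k) := by
  exact measurable_of_finite _

instance (n : ℕ) : IsProbabilityMeasure (blockLaw n) :=
  Measure.isProbabilityMeasure_map (measurable_blockSum n).aemeasurable

theorem charFun_blockLaw (n : ℕ) (t : ℝ) :
    charFun (blockLaw n) t = charFun (coin.map sgn) ((√n)⁻¹ * t) ^ n := by
  have hs : Measurable sgn := measurable_of_finite _
  have : IsProbabilityMeasure (coin.map sgn) := Measure.isProbabilityMeasure_map hs.aemeasurable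
  have hv : Measurable fun w : Fin n → Bool => fun k => sgn (w k) :=
    measurable_pi_lambda _ fun k => hs.comp (measurable_pi_apply k)
  have hsum : Measurable fun p : Fin n → ℝ => ∑ k, p k := by fun_prop
  have hf : AEMeasurable (fun w : Fin n → Bool => ∑ k, sgn (w k)) (Measure.pi fun _ => coin) :=
    (hsum.comp hv).aemeasurable
  rw [blockLaw, charFun_map_mul_comp hf,
    show (fun w : Fin n → Bool => ∑ k, sgn (w k)) =
      (fun p : Fin n → ℝ => ∑ k, p k) ∘ fun w k => sgn (w k) from rfl,
    ← Measure.map_map hsum hv, Measure.pi_map_pi fun k => hs.aemeasurable,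
    charFun_map_sum_pi_eq_prod]
  simp

/-- **The central limit theorem for a block.** -/
theorem tendsto_blockLaw : Tendsto (β := ProbabilityMeasure ℝ) (fun n => ⟨blockLaw n,
      inferInstance⟩)
    atTop (𝓝 ⟨gaussianReal 0 1, inferInstance⟩) := by
  refine ProbabilityMeasure.tendsto_iff_tendsto_charFun.2 fun t => ?_
  simp only [ProbabilityMeasure.coe_mk, charFun_blockLaw]
  have h0 : ∫ b, sgn b ∂coin = 0 := by
    rw [integral_coin]
    simp [sgn]
  have h1 : ∫ b, (sgn ^ 2) b ∂coin = 1 := by
    rw [integral_coin]
    norm_num [sgn]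
  convert tendsto_charFun_inv_sqrt_mul_pow (P := coin) (measurable_of_finite sgn).aemeasurable h0 h1
    t using 2
  rw [charFun_gaussianReal]
  push_cast
  ring_nf

/-- **Means over the cube tend to Gaussian integrals.** -/
theorem tendsto_avg (d : ℕ) (F : BoundedContinuousFunction (Fin d → ℝ) ℝ) :
    Tendsto (fun n => avg fun x : Fin d × Fin n → Bool => F (cubeSum n x)) atTop
      (𝓝 (∫ y, F y ∂stdNormal d)) := by
  have h := ProbabilityMeasure.tendsto_iff_forall_integral_tendsto.1
    (((ProbabilityMeasure.continuous_pi (α := fun _ : Fin d => ℝ)).tendsto _).comp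
      (tendsto_pi_nhds.2 fun _ : Fin d => tendsto_blockLaw)) F
  simp only [Function.comp_apply, ProbabilityMeasure.toMeasure_pi, ProbabilityMeasure.coe_mk] at h
  refine h.congr fun n => ?_
  have hm : Measurable fun (w : Fin d → Fin n → Bool) (j : Fin d) => (√n)⁻¹ * ∑ k, sgn (w j k) :=
    measurable_of_finite _
  have hb : ∀ _j : Fin d, AEMeasurable (fun w : Fin n → Bool => (√n)⁻¹ * ∑ k, sgn (w k))
      (Measure.pi fun _ : Fin n => coin) := fun _ => (measurable_blockSum n).aemeasurable
  simp only [blockLaw]
  rw [← Measure.pi_map_pi hb, integral_map hm.aemeasurable F.continuous.aestronglyMeasurable,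
    integral_fintype Integrable.of_finite, ← avg_equiv (Equiv.curry (Fin d) (Fin n) Bool).symm]
  rw [avg, mul_sum]
  refine sum_congr rfl fun w _ => ?_
  have hw : (Measure.pi fun _ : Fin d => Measure.pi fun _ : Fin n => coin).real {w} =
      (Fintype.card (Fin d → Fin n → Bool) : ℝ)⁻¹ := by
    rw [measureReal_def, Measure.pi_singleton]
    simp only [Measure.pi_singleton, coin_singleton, prod_const, card_univ, Fintype.card_fin,
      ENNReal.toReal_pow, ENNReal.toReal_inv, ENNReal.toReal_ofNat, Fintype.card_pi,
      Fintype.card_bool]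
    push_cast
    rw [inv_pow, inv_pow]
  rw [hw, smul_eq_mul]
  rfl

end FA.LogSobolev
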