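import Fermat.Agent.LogSobolev.Gaussian
import Mathlib.Analysis.Calculus.ContDiff.Convolution
import Mathlib.Analysis.Calculus.BumpFunction.FiniteDimension
import Mathlib.Analysis.Calculus.BumpFunction.Normed

/-!
# Smoothing of Lipschitz functions

Convolution with a bump of radius `ρ` keeps a bound and a Euclidean Lipschitz constant, moves the
values by `O (ρ)` and gives a bounded uniformly continuous derivative.
-/

set_option autoImplicit false

noncomputable section

namespace FA.LogSobolev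

open MeasureTheory Filter Topology Finset
open scoped Convolution

variable {d : ℕ}

/-- The Euclidean norm on `ℝ ^ d`. -/
def eucl (v : Fin d → ℝ) : ℝ := √(∑ j, v j ^ 2)

/-- Lipschitz for the Euclidean norm. -/
def EuclidLip (L : ℝ) (f : (Fin d → ℝ) → ℝ) : Prop := ∀ x y, |f x - f y| ≤ L * eucl (x - y)

theorem eucl_le (v : Fin d → ℝ) : eucl v ≤ √d * ‖v‖ := by
  refine Real.sqrt_le_iff.2 ⟨by positivity, ?_⟩
  rw [mul_pow, Real.sq_sqrt (Nat.cast_nonneg d)]
  calc ∑ j, v j ^ 2 ≤ ∑ _j : Fin d, ‖v‖ ^ 2 := sum_le_sum fun j _ => by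
        rw [← sq_abs (v j)]
        exact pow_le_pow_left₀ (abs_nonneg _) ((Real.norm_eq_abs _).symm.trans_le
            (norm_le_pi_norm v j)) 2
    _ = _ := by simp

theorem eucl_smul (s : ℝ) (v : Fin d → ℝ) : eucl (s • v) = |s| * eucl v := by
  simp only [eucl, Pi.smul_apply, smul_eq_mul, mul_pow, ← mul_sum]
  rw [Real.sqrt_mul (sq_nonneg s), Real.sqrt_sq_eq_abs]

theorem EuclidLip.dist_le {L : ℝ} {f : (Fin d → ℝ) → ℝ} (h : EuclidLip L f) (hL : 0 ≤ L)
    (x y : Fin d → ℝ) : |f x - f y| ≤ L * √d * dist x y := by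
  rw [dist_eq_norm, mul_assoc]
  exact (h x y).trans (mul_le_mul_of_nonneg_left (eucl_le _) hL)

theorem EuclidLip.continuous {L : ℝ} {f : (Fin d → ℝ) → ℝ} (h : EuclidLip L f) (hL : 0 ≤ L) :
    Continuous f :=
  (LipschitzWith.of_dist_le_mul (K := ⟨L * √d, by positivity⟩) fun x y => h.dist_le hL x
      y).continuous

/-- The gradient of a Euclidean Lipschitz function is bounded by the constant. -/
theorem sum_pd_sq_le {L : ℝ} {f : (Fin d → ℝ) → ℝ} {f' : (Fin d → ℝ) → (Fin d → ℝ) →L[ℝ] ℝ}
    (hL : 0 ≤ L) (h : EuclidLip L f) {x : Fin d → ℝ} (hd : HasFDerivAt f (f' x) x) :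
    ∑ j, pd f' j x ^ 2 ≤ L ^ 2 := by
  have hv : ∀ v : Fin d → ℝ, f' x v ≤ L * eucl v := by
    intro v
    have hl : HasDerivAt (fun s : ℝ => f (x + s • v)) (f' x v) 0 := by
      have h1 : HasDerivAt (fun s : ℝ => x + s • v) v 0 := by
        simpa using ((hasDerivAt_id (0 : ℝ)).smul_const v).const_add x
      exact HasFDerivAt.comp_hasDerivAt (0 : ℝ) (by simpa using hd) h1
    refine (le_abs_self _).trans ?_
    refine le_of_tendsto (hl.tendsto_slope_zero.abs) ?_
    filter_upwards [self_mem_nhdsWithin] with s hs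
    simp only [zero_add, zero_smul, add_zero, smul_eq_mul, abs_mul, abs_inv]
    rw [inv_mul_le_iff₀ (abs_pos.2 hs)]
    refine (h _ _).trans_eq ?_
    rw [add_sub_cancel_left, eucl_smul]
    ring
  set g : Fin d → ℝ := fun j => pd f' j x
  have hg : f' x g = ∑ j, g j ^ 2 := by
    conv_lhs => rw [pi_eq_sum_univ' g]
    simp only [map_sum, map_smul, smul_eq_mul]
    refine sum_congr rfl fun j _ => ?_
    simp [g, pd, sq]
  have h1 := hv g
  rw [hg, eucl] at h1
  have h0 : 0 ≤ ∑ j, g j ^ 2 := sum_nonneg fun j _ => sq_nonneg _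
  have h2 : √(∑ j, g j ^ 2) ≤ L := by
    rcases (Real.sqrt_nonneg (∑ j, g j ^ 2)).eq_or_lt with he | hp
    · rw [← he]
      exact hL
    · exact le_of_mul_le_mul_right ((Real.mul_self_sqrt h0).le.trans h1) hp
  calc ∑ j, pd f' j x ^ 2 = √(∑ j, g j ^ 2) ^ 2 := (Real.sq_sqrt h0).symm
    _ ≤ L ^ 2 := pow_le_pow_left₀ (Real.sqrt_nonneg _) h2 2

/-- The bump of radius `ρ`. -/
def bump (d : ℕ) {ρ : ℝ} (hρ : 0 < ρ) : ContDiffBump (0 : Fin d → ℝ) :=
  ⟨ρ / 2, ρ, half_pos hρ, half_lt_self hρ⟩

/-- The smoothing of a function. -/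
def smoothed (f : (Fin d → ℝ) → ℝ) {ρ : ℝ} (hρ : 0 < ρ) (x : Fin d → ℝ) : ℝ :=
  ∫ z, f (x - z) * (bump d hρ).normed volume z

/-- **Smoothing.** -/
theorem exists_smoothBounded {f : (Fin d → ℝ) → ℝ} {L M : ℝ} (hL : 0 ≤ L) (hf : EuclidLip L f)
    (hM : ∀ x, |f x| ≤ M) {ρ : ℝ} (hρ : 0 < ρ) :
    ∃ F F', SmoothBounded F F' ∧ EuclidLip L F ∧ (∀ x, |F x| ≤ M) ∧
      ∀ x, |F x - f x| ≤ L * √d * ρ := by
  set φ := (bump d hρ).normed (volume : Measure (Fin d → ℝ))
  have hφc : Continuous φ := (bump d hρ).continuous_normed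
  have hφd : ContDiff ℝ 1 φ := (bump d hρ).contDiff_normed
  have hφs : HasCompactSupport φ := (bump d hρ).hasCompactSupport_normed
  have hφ0 : ∀ z, 0 ≤ φ z := (bump d hρ).nonneg_normed
  have hφi : Integrable φ := (bump d hρ).integrable_normed
  have hφ1 : ∫ z, φ z = 1 := (bump d hρ).integral_normed
  have hfc := hf.continuous hL
  have hint : ∀ x, Integrable fun z => f (x - z) * φ z := fun x =>
    hφi.bdd_mul (c := M) (hfc.comp (continuous_const.sub continuous_id)).aestronglyMeasurable
      (Eventually.of_forall fun z => hM _)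
  have hdiff : ∀ x y, |smoothed f hρ x - smoothed f hρ y| ≤ ∫ z, |f (x - z) - f (y - z)| * φ z := by
    intro x y
    rw [smoothed, smoothed, ← integral_sub (hint x) (hint y)]
    refine abs_integral_le_integral_abs.trans_eq (integral_congr_ae (Eventually.of_forall fun z
        => ?_))
    show |f (x - z) * φ z - f (y - z) * φ z| = |f (x - z) - f (y - z)| * φ z
    rw [← sub_mul, abs_mul, abs_of_nonneg (hφ0 z)]
  set F' : (Fin d → ℝ) → (Fin d → ℝ) →L[ℝ] ℝ :=
    f ⋆[(ContinuousLinearMap.lsmul ℝ ℝ).precompR (Fin d → ℝ), volume] fderiv ℝ φ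
  have hFconv : smoothed f hρ = f ⋆[ContinuousLinearMap.lsmul ℝ ℝ, volume] φ := by
    funext x
    rw [convolution_eq_swap]
    rfl
  have hdc : Continuous (fderiv ℝ φ) := hφd.continuous_fderiv one_ne_zero
  have hdi : Integrable fun z => ‖fderiv ℝ φ z‖ :=
    (hdc.integrable_of_hasCompactSupport (hφs.fderiv ℝ)).norm
  have hF'eq : ∀ x, F' x = ∫ z, f (x - z) • fderiv ℝ φ z := fun x => by
    simp only [F']
    rw [convolution_eq_swap]
    refine integral_congr_ae (Eventually.of_forall fun z => ?_)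
    ext v
    simp
  have hint' : ∀ x, Integrable fun z => f (x - z) • fderiv ℝ φ z := fun x =>
    (hdc.integrable_of_hasCompactSupport (hφs.fderiv ℝ)).bdd_smul M
      (hfc.comp (continuous_const.sub continuous_id)).aestronglyMeasurable
      (Eventually.of_forall fun z => hM _)
  set c := ∫ z, ‖fderiv ℝ φ z‖
  have hc : 0 ≤ c := integral_nonneg fun z => norm_nonneg _
  have hM0 : 0 ≤ M := (abs_nonneg _).trans (hM 0)
  refine ⟨smoothed f hρ, F', ⟨fun x => ?_, ⟨M, fun x => ?_⟩, ⟨M * c, fun x => ?_⟩, ?_⟩,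
    fun x y => ?_, fun x => ?_, fun x => ?_⟩
  · rw [hFconv]
    exact hφs.hasFDerivAt_convolution_right (ContinuousLinearMap.lsmul ℝ ℝ)
      hfc.locallyIntegrable hφd x
  rotate_left 3
  · refine (hdiff x y).trans ((integral_mono_of_nonneg (Eventually.of_forall fun z =>
      mul_nonneg (abs_nonneg _) (hφ0 z)) (hφi.const_mul (L * eucl (x - y)))
      (Eventually.of_forall fun z => ?_)).trans_eq (by rw [integral_const_mul, hφ1, mul_one]))
    refine mul_le_mul_of_nonneg_right ((hf _ _).trans_eq ?_) (hφ0 z)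
    rw [sub_sub_sub_cancel_right]
  · refine (abs_integral_le_integral_abs).trans ((integral_mono (hint x).abs (hφi.const_mul M)
      fun z => ?_).trans_eq (by rw [integral_const_mul, hφ1, mul_one]))
    show |f (x - z) * φ z| ≤ M * φ z
    rw [abs_mul, abs_of_nonneg (hφ0 z)]
    exact mul_le_mul_of_nonneg_right (hM _) (hφ0 z)
  · have e : smoothed f hρ x - f x = ∫ z, (f (x - z) - f x) * φ z := by
      simp only [sub_mul]
      rw [integral_sub (hint x) (hφi.const_mul _), integral_const_mul, hφ1, mul_one]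
      rfl
    rw [e]
    refine abs_integral_le_integral_abs.trans ((integral_mono_of_nonneg
      (Eventually.of_forall fun z => abs_nonneg _) (hφi.const_mul (L * √d * ρ))
      (Eventually.of_forall fun z => ?_)).trans_eq (by rw [integral_const_mul, hφ1, mul_one]))
    show |(f (x - z) - f x) * φ z| ≤ L * √d * ρ * φ z
    rw [abs_mul, abs_of_nonneg (hφ0 z)]
    rcases eq_or_ne (φ z) 0 with hz | hz
    · simp [hz]
    · have hmem : z ∈ Function.support φ := hz
      rw [(bump d hρ).support_normed_eq, Metric.mem_ball, dist_zero_right] at hmem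
      refine mul_le_mul_of_nonneg_right ((hf.dist_le hL _ _).trans ?_) (hφ0 z)
      refine mul_le_mul_of_nonneg_left ?_ (by positivity)
      rw [dist_eq_norm, sub_sub_cancel_left, norm_neg]
      exact hmem.le
  · refine (abs_integral_le_integral_abs).trans ((integral_mono (hint x).abs (hφi.const_mul M)
      fun z => ?_).trans_eq (by rw [integral_const_mul, hφ1, mul_one]))
    show |f (x - z) * φ z| ≤ M * φ z
    rw [abs_mul, abs_of_nonneg (hφ0 z)]
    exact mul_le_mul_of_nonneg_right (hM _) (hφ0 z)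
  · rw [hF'eq]
    refine (norm_integral_le_integral_norm _).trans ((integral_mono_of_nonneg
      (Eventually.of_forall fun z => norm_nonneg _) (hdi.const_mul M)
      (Eventually.of_forall fun z => ?_)).trans_eq (integral_const_mul _ _))
    refine le_of_eq_of_le (norm_smul (f (x - z)) (fderiv ℝ φ z)) ?_
    exact mul_le_mul_of_nonneg_right (hM _) (norm_nonneg _)
  · refine (LipschitzWith.of_dist_le_mul (K := ⟨L * √d * c, by positivity⟩) fun x y => ?_
      ).uniformContinuous
    rw [dist_eq_norm, hF'eq, hF'eq, ← integral_sub (hint' x) (hint' y)]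
    refine (norm_integral_le_integral_norm _).trans ((integral_mono_of_nonneg
      (Eventually.of_forall fun z => norm_nonneg _) (hdi.const_mul (L * √d * dist x y))
      (Eventually.of_forall fun z => ?_)).trans_eq ?_)
    · show ‖f (x - z) • fderiv ℝ φ z - f (y - z) • fderiv ℝ φ z‖ ≤
        L * √d * dist x y * ‖fderiv ℝ φ z‖
      refine le_of_eq_of_le ((congrArg (fun w => ‖w‖)
        (sub_smul (f (x - z)) (f (y - z)) (fderiv ℝ φ z)).symm).trans (norm_smul _ _)) ?_
      refine mul_le_mul_of_nonneg_right ((hf.dist_le hL _ _).trans_eq ?_) (norm_nonneg _)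
      rw [dist_sub_right]
    · rw [integral_const_mul]
      show L * √d * dist x y * c = L * √d * c * dist x y
      ring

end FA.LogSobolev
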